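import Mathlib

/-!
# PROJECT C, slice A1: comparison of bar resolutions along a subgroup

For a subgroup `S ≤ G` (no finiteness assumption) the inclusion induces an explicit chain map
`iota : barComplex k S ⟶ Res (barComplex k G)` of projective resolutions of the trivial
`S`-representation, compatible with the augmentations.  Consequently precomposition with `iota`,
`iotaStar S A : Hom_S(Res (barComplex k G), A) ⟶ Hom_S(barComplex k S, A)`, is a quasi-isomorphism
for every `A : Rep k S` (`quasiIsoAt_iotaStar`).
-/

set_option autoImplicit false

noncomputable section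

open CategoryTheory Rep Finsupp

open scoped TensorProduct

namespace Fermat.Agent.CFT.A1.BarCompare

universe u

variable {k G : Type u} [CommRing k] [Group G] (S : Subgroup G)

/-- The restricted bar complex. -/
abbrev resBar : ChainComplex (Rep.{u} k S) ℕ :=
  ((resFunctor S.subtype).mapHomologicalComplex (ComplexShape.down ℕ)).obj (barComplex k G)

/-- component of the comparison map. -/
def iotaF (n : ℕ) : free k S (Fin n → S) ⟶ res S.subtype (free k G (Fin n → G)) :=
  freeLift k S (res S.subtype (free k G (Fin n → G)))
    (fun x => Finsupp.single (fun i => (x i : G)) (MonoidAlgebra.single (1 : G) (1 : k)))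

@[simp]
theorem iotaF_single_single (n : ℕ) (x : Fin n → S) (s : S) (r : k) :
    (iotaF S n).hom (Finsupp.single x (MonoidAlgebra.single s r)) =
      Finsupp.single (fun i => (x i : G)) (MonoidAlgebra.single (s : G) r) := by
  unfold iotaF
  simp

theorem iotaF_comm (n : ℕ) :
    iotaF S (n + 1) ≫ (resFunctor S.subtype).map (barComplex.d k G n) =
      barComplex.d k S n ≫ iotaF S n := by
  refine free_ext k S _ _ _ fun x => ?_
  simp only [Rep.hom_comp, Representation.IntertwiningMap.comp_apply]
  rw [iotaF_single_single, barComplex.d_single, map_add, map_sum, iotaF_single_single]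
  change (barComplex.d k G n).hom _ = _
  rw [Subgroup.coe_one, barComplex.d_single]
  congr 1
  refine Finset.sum_congr rfl fun j _ => ?_
  rw [iotaF_single_single, Subgroup.coe_one]
  congr 1
  have := Fin.comp_contractNth (· * ·) (· * ·) (f := (Subtype.val : S → G)) (fun _ _ => rfl) j x
  exact this.symm

/-- The comparison chain map `barComplex k S ⟶ Res (barComplex k G)`. -/
def iota : barComplex k S ⟶ resBar (k := k) S where
  f n := iotaF S n
  comm' i j hij := by
    obtain rfl : j + 1 = i := hij
    have h1 : (barComplex k S).d (j + 1) j = barComplex.d k S j := barComplex.d_def k S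
    have h2 : (resBar (k := k) S).d (j + 1) j = (resFunctor S.subtype).map (barComplex.d k G j) := by
      rw [Functor.mapHomologicalComplex_obj_d, barComplex.d_def k G]
    rw [h1, h2]
    exact iotaF_comm S j

set_option backward.defeqAttrib.useBackward true in
unif_hint (X : Type*) where ⊢ Action.V (Action.trivial G X) ≟ X in
set_option backward.isDefEq.respectTransparency false in
theorem diagonalSuccIsoFree_inv_single_single (m : ℕ) (f : Fin m → G) (g : G) (r : k) :
    (diagonalSuccIsoFree k G m).inv.hom (single f (MonoidAlgebra.single g r)) =
      MonoidAlgebra.single (g • Fin.partialProd f) r := by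
  simp only [diagonalSuccIsoFree, diagonalSuccIsoTensorTrivial, Iso.trans_inv, Rep.hom_comp,
    Representation.IntertwiningMap.comp_apply]
  have step1 : (Hom.hom (leftRegularTensorTrivialIsoFree k G (Fin m → G)).inv)
      (single f (.single g r)) = .single g 1 ⊗ₜ[k] .single f r :=
    Representation.leftRegularTensorTrivialIsoFree_symm_apply_single_single f g r
  rw [step1]
  simp only [mkIso_inv, Representation.linearizeOfMulActionIso, Representation.Equiv.mk_symm,
    LinearEquiv.refl_symm, ConcreteCategory.hom_ofHom, Action.tensorObj_V, Action.trivial_V,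
    Functor.mapIso_inv, tensor_V, tensor_ρ, Iso.symm_inv, Functor.Monoidal.μIso_hom, μ_hom,
    MonoidalCategory.tensorIso_inv, Representation.linearizeTrivialIso, hom_tensorHom,
    Representation.IntertwiningMap.tensor_apply, Representation.Equiv.coe_toIntertwiningMap,
    Representation.Equiv.mk_apply, LinearEquiv.refl_apply]
  have key₁ := Representation.linearizeMap_single (k := k)
    (Action.diagonalSuccIsoTensorTrivial G m).inv (g, f) ((1 : k) * r)
  have key₂ := Representation.LinearizeMonoidal.μ_apply_single_single (k := k)
    (X := Action.leftRegular G) (Y := Action.trivial G (Fin m → G)) g f 1 r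
  exact ((congrArg (fun z => (Representation.linearizeMap
    (Action.diagonalSuccIsoTensorTrivial G m).inv) z) key₂).trans key₁).trans (by simp)

/-- The augmentation of the bar resolution in degree `0`. -/
def barAug (k G : Type u) [CommRing k] [Group G] : free k G (Fin 0 → G) ⟶ Rep.trivial k G k :=
  (barResolution k G).π.f 0

theorem barAug_eq (k G : Type u) [CommRing k] [Group G] :
    barAug k G = (diagonalSuccIsoFree k G 0).inv ≫ Rep.standardComplex.ε k G := by
  rfl

theorem barAug_single_single (x : Fin 0 → G) (g : G) (r : k) :
    (barAug k G).hom (Finsupp.single x (MonoidAlgebra.single g r)) = r := by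
  rw [barAug_eq, Rep.hom_comp, Representation.IntertwiningMap.comp_apply,
    diagonalSuccIsoFree_inv_single_single]
  simp [Rep.standardComplex.ε]


/-- The restricted bar resolution, a projective resolution of the trivial `S`-representation. -/
def resBarResolution : ProjectiveResolution (Rep.trivial k S k) :=
  (resFunctor S.subtype).mapProjectiveResolution (barResolution k G)

theorem resBarResolution_complex : (resBarResolution (k := k) S).complex = resBar S := rfl

theorem iota_comm_aug :
    (iota (k := k) S).f 0 ≫ (resBarResolution (k := k) S).π.f 0 =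
      (barResolution k S).π.f 0 ≫ 𝟙 _ := by
  rw [Category.comp_id]
  simp only [resBarResolution, Functor.mapProjectiveResolution_π, HomologicalComplex.comp_f,
    Functor.mapHomologicalComplex_map_f, HomologicalComplex.singleMapHomologicalComplex_hom_app_self]
  change iotaF S 0 ≫ (resFunctor S.subtype).map (barAug k G) ≫ _ = barAug k S
  have e1 : (HomologicalComplex.singleObjXSelf (ComplexShape.down ℕ) 0 (Rep.trivial k G k)).hom
      = 𝟙 _ := rfl
  have e2 : (HomologicalComplex.singleObjXSelf (ComplexShape.down ℕ) 0
      (of (MonoidHom.comp (Representation.trivial k G k) S.subtype))).inv = 𝟙 _ := rfl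
  rw [e1, e2]
  refine free_ext k S _ _ _ fun x => ?_
  change (barAug k G).hom ((iotaF S 0).hom (Finsupp.single x (MonoidAlgebra.single 1 1))) = _
  rw [iotaF_single_single, barAug_single_single, barAug_single_single]

section QI

variable (A : Rep.{u} k S)

/-- Precomposition with `iota`, as a map of cochain complexes. -/
def iotaStar : (resBar (k := k) S).linearYonedaObj k A ⟶ (barComplex k S).linearYonedaObj k A :=
  (HomologicalComplex.unopFunctor _ _).map
    ((((linearYoneda k (Rep.{u} k S)).obj A).rightOp.mapHomologicalComplex _).map (iota S)).op

theorem iotaStar_f_apply (n : ℕ) (f : (resBar (k := k) S).X n ⟶ A) :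
    (iotaStar S A).f n f = (iota S).f n ≫ f := rfl

/-- `iota` induces a quasi-isomorphism after applying `Hom(-, A)` (opposite version). -/
theorem quasiIsoAt_map_iota (n : ℕ) :
    QuasiIsoAt ((((linearYoneda k (Rep.{u} k S)).obj A).rightOp.mapHomologicalComplex _).map
      (iota S)) n := by
  rw [quasiIsoAt_iff_isIso_homologyMap]
  have h := ProjectiveResolution.isoLeftDerivedObj_hom_naturality (𝟙 (Rep.trivial k S k))
    (barResolution k S) (resBarResolution S) (iota S) (iota_comm_aug S)
    (((linearYoneda k (Rep.{u} k S)).obj A).rightOp) n
  rw [CategoryTheory.Functor.map_id, Category.id_comp] at h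
  have h2 : HomologicalComplex.homologyMap
      ((((linearYoneda k (Rep.{u} k S)).obj A).rightOp.mapHomologicalComplex _).map (iota S)) n
      = ((barResolution k S).isoLeftDerivedObj _ n).inv ≫
        ((resBarResolution S).isoLeftDerivedObj _ n).hom := by
    rw [h, Iso.inv_hom_id_assoc]
    rfl
  rw [h2]
  exact (((barResolution k S).isoLeftDerivedObj
    (((linearYoneda k (Rep.{u} k S)).obj A).rightOp) n).symm ≪≫
    ((resBarResolution S).isoLeftDerivedObj _ n)).isIso_hom

instance quasiIsoAt_iotaStar (n : ℕ) : QuasiIsoAt (iotaStar S A) n :=
  (HomologicalComplex.quasiIsoAt_unopFunctor_map_iff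
    ((((linearYoneda k (Rep.{u} k S)).obj A).rightOp.mapHomologicalComplex _).map (iota S)) n).2
    (quasiIsoAt_map_iota S A n)

end QI

end Fermat.Agent.CFT.A1.BarCompare
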