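/-
PROJECT C (class field theory), slice A1: corestriction on inhomogeneous cochains.

For a subgroup `S ≤ G` of finite index and a `G`-representation `A` we define the chain map
`coresCochains : C^•(S, Res A) ⟶ C^•(G, A)` by the classical transfer formula
`(cor f)(g₁,…,gₙ) = ∑_{q ∈ G/S} t_q • f (t_{q₀}⁻¹ g₁ t_{q₁}, …, t_{qₙ₋₁}⁻¹ gₙ t_{qₙ})`,
`q₀ = q`, `qᵢ = (g₁⋯gᵢ)⁻¹ • q`, where `t_q = Quotient.out q`.
-/
import Mathlib

set_option autoImplicit false

namespace Fermat.Agent.CFT.A1

open CategoryTheory Rep groupCohomology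

universe u

section Tuples

variable {G : Type u} [Group G]

/-- Conjugate a tuple `g` by a sequence of "vertices" `v`. -/
def conjTuple {n : ℕ} (v : Fin (n + 1) → G) (g : Fin n → G) : Fin n → G :=
  fun i => (v i.castSucc)⁻¹ * g i * v i.succ

lemma contractNth_conjTuple {n : ℕ} (j : Fin (n + 1)) (v : Fin (n + 2) → G)
    (g : Fin (n + 1) → G) :
    Fin.contractNth j (· * ·) (conjTuple v g) =
      conjTuple (v ∘ j.succ.succAbove) (Fin.contractNth j (· * ·) g) := by
  funext k
  rcases lt_trichotomy (k : ℕ) j with h | h | h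
  · rw [Fin.contractNth_apply_of_lt _ _ _ _ h]
    simp only [conjTuple, Function.comp_apply]
    rw [Fin.contractNth_apply_of_lt _ _ _ _ h]
    have h1 : j.succ.succAbove k.castSucc = k.castSucc.castSucc := by
      apply Fin.succAbove_of_castSucc_lt
      simp only [Fin.lt_def, Fin.val_castSucc, Fin.val_succ]; omega
    have h2 : j.succ.succAbove k.succ = k.succ.castSucc := by
      apply Fin.succAbove_of_castSucc_lt
      simp only [Fin.lt_def, Fin.val_castSucc, Fin.val_succ]; omega
    rw [h1, h2]
    rfl
  · rw [Fin.contractNth_apply_of_eq _ _ _ _ h]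
    simp only [conjTuple, Function.comp_apply]
    rw [Fin.contractNth_apply_of_eq _ _ _ _ h]
    have h1 : j.succ.succAbove k.castSucc = k.castSucc.castSucc := by
      apply Fin.succAbove_of_castSucc_lt
      simp only [Fin.lt_def, Fin.val_castSucc, Fin.val_succ]; omega
    have h2 : j.succ.succAbove k.succ = k.succ.succ := by
      apply Fin.succAbove_of_le_castSucc
      simp only [Fin.le_def, Fin.val_castSucc, Fin.val_succ]; omega
    rw [h1, h2]
    have h3 : (k.castSucc).succ = (k.succ).castSucc := rfl
    rw [h3]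
    group
  · rw [Fin.contractNth_apply_of_gt _ _ _ _ h]
    simp only [conjTuple, Function.comp_apply]
    rw [Fin.contractNth_apply_of_gt _ _ _ _ h]
    have h1 : j.succ.succAbove k.castSucc = k.castSucc.succ := by
      apply Fin.succAbove_of_le_castSucc
      simp only [Fin.le_def, Fin.val_castSucc, Fin.val_succ]; omega
    have h2 : j.succ.succAbove k.succ = k.succ.succ := by
      apply Fin.succAbove_of_le_castSucc
      simp only [Fin.le_def, Fin.val_castSucc, Fin.val_succ]; omega
    rw [h1, h2]
    rfl

end Tuples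

section Twist

variable {G : Type u} [Group G] (S : Subgroup G)

/-- The vertex sequence `t_{q₀}, …, t_{qₙ}` attached to a tuple `g` and a coset `q`:
`qᵢ = (g₁⋯gᵢ)⁻¹ • q`. -/
noncomputable def vtx {n : ℕ} (g : Fin n → G) (q : G ⧸ S) : Fin (n + 1) → G :=
  fun i => Quotient.out ((Fin.partialProd g i)⁻¹ • q)

lemma vtx_zero {n : ℕ} (g : Fin n → G) (q : G ⧸ S) : vtx S g q 0 = Quotient.out q := by
  simp [vtx]

lemma mk_vtx {n : ℕ} (g : Fin n → G) (q : G ⧸ S) (i : Fin (n + 1)) :
    (QuotientGroup.mk (vtx S g q i) : G ⧸ S) = (Fin.partialProd g i)⁻¹ • q :=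
  QuotientGroup.out_eq' _

lemma conjTuple_vtx_mem {n : ℕ} (g : Fin n → G) (q : G ⧸ S) (i : Fin n) :
    conjTuple (vtx S g q) g i ∈ S := by
  have h : (QuotientGroup.mk (vtx S g q i.castSucc) : G ⧸ S)
      = QuotientGroup.mk (g i * vtx S g q i.succ) := by
    have e : (QuotientGroup.mk (g i * vtx S g q i.succ) : G ⧸ S)
        = g i • (QuotientGroup.mk (vtx S g q i.succ) : G ⧸ S) := rfl
    rw [e, mk_vtx, mk_vtx, Fin.partialProd_succ, mul_inv_rev, mul_smul, smul_inv_smul]
  have := QuotientGroup.eq.mp h
  simpa [conjTuple, mul_assoc] using this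

/-- The twisted tuple in `S`. -/
noncomputable def twist {n : ℕ} (g : Fin n → G) (q : G ⧸ S) : Fin n → S :=
  fun i => ⟨conjTuple (vtx S g q) g i, conjTuple_vtx_mem S g q i⟩

lemma coe_twist {n : ℕ} (g : Fin n → G) (q : G ⧸ S) :
    (fun i => ((twist S g q i : S) : G)) = conjTuple (vtx S g q) g := rfl

lemma vtx_contractNth {n : ℕ} (j : Fin (n + 1)) (g : Fin (n + 1) → G) (q : G ⧸ S) :
    vtx S (Fin.contractNth j (· * ·) g) q = vtx S g q ∘ j.succ.succAbove := by
  funext i
  simp only [vtx, Function.comp_apply, Fin.partialProd_contractNth]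

lemma twist_contractNth {n : ℕ} (j : Fin (n + 1)) (g : Fin (n + 1) → G) (q : G ⧸ S) :
    twist S (Fin.contractNth j (· * ·) g) q = Fin.contractNth j (· * ·) (twist S g q) := by
  have h := contractNth_conjTuple j (vtx S g q) g
  rw [← vtx_contractNth] at h
  funext k
  apply Subtype.ext
  have h2 := congrFun h k
  have h3 : ((Fin.contractNth j (· * ·) (twist S g q) k : S) : G)
      = Fin.contractNth j (· * ·) (fun i => ((twist S g q i : S) : G)) k := by
    have := Fin.comp_contractNth (fun x y : S => x * y) (fun x y : G => x * y)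
      (f := fun x : S => (x : G)) (fun _ _ => rfl) j (twist S g q)
    exact congrFun this k
  rw [h3, coe_twist, h2]
  rfl

lemma vtx_tail {n : ℕ} (g : Fin (n + 1) → G) (q : G ⧸ S) (i : Fin (n + 1)) :
    vtx S g q i.succ = vtx S (fun i => g i.succ) ((g 0)⁻¹ • q) i := by
  simp only [vtx, Fin.partialProd_succ', mul_inv_rev, mul_smul]
  rfl

lemma twist_tail {n : ℕ} (g : Fin (n + 1) → G) (q : G ⧸ S) :
    (fun i : Fin n => twist S g q i.succ) = twist S (fun i => g i.succ) ((g 0)⁻¹ • q) := by
  funext i
  apply Subtype.ext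
  simp only [twist, conjTuple]
  rw [← vtx_tail, ← vtx_tail]
  rfl

lemma out_mul_twist_zero {n : ℕ} (g : Fin (n + 1) → G) (q : G ⧸ S) :
    Quotient.out q * (twist S g q 0 : G) = g 0 * Quotient.out ((g 0)⁻¹ • q) := by
  simp only [twist, conjTuple]
  have h0 : vtx S g q (0 : Fin (n + 1)).castSucc = Quotient.out q := by
    simpa using vtx_zero S g q
  have h1 : vtx S g q (0 : Fin (n + 1)).succ = Quotient.out ((g 0)⁻¹ • q) := by
    rw [vtx_tail]; simp [vtx]
  rw [h0, h1]
  group

end Twist

section Cochains

variable {k G : Type u} [CommRing k] [Group G] (S : Subgroup G) [S.FiniteIndex] (A : Rep.{u} k G)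

attribute [local instance] Subgroup.fintypeQuotientOfFiniteIndex

/-- The transfer formula on `n`-cochains. -/
noncomputable def coresFun (n : ℕ) :
    ((Fin n → S) → (res S.subtype A)) →ₗ[k] ((Fin n → G) → A) where
  toFun f g := ∑ q : G ⧸ S, A.ρ (Quotient.out q) (f (twist S g q))
  map_add' f₁ f₂ := by
    funext g
    simp [Finset.sum_add_distrib]
  map_smul' c f := by
    funext g
    simp [Finset.smul_sum]

lemma coresFun_apply (n : ℕ) (f : (Fin n → S) → (res S.subtype A)) (g : Fin n → G) :
    coresFun S A n f g = ∑ q : G ⧸ S, A.ρ (Quotient.out q) (f (twist S g q)) := rfl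

lemma coresFun_d (n : ℕ) (f : (Fin n → S) → (res S.subtype A)) :
    coresFun S A (n + 1) (inhomogeneousCochains.d (res S.subtype A) n f)
      = inhomogeneousCochains.d A n (coresFun S A n f) := by
  funext g
  rw [coresFun_apply]
  simp only [inhomogeneousCochains.d_hom_apply]
  simp only [map_add, map_sum, map_smul, Finset.sum_add_distrib]
  congr 1
  · -- the first term: reindex the cosets by `q ↦ (g 0)⁻¹ • q`
    have h1 : ∀ q : G ⧸ S,
        A.ρ (Quotient.out q) ((MonoidHom.comp A.ρ S.subtype) (twist S g q 0)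
          (f fun i => twist S g q i.succ))
        = A.ρ (g 0) (A.ρ (Quotient.out ((g 0)⁻¹ • q))
            (f (twist S (fun i => g i.succ) ((g 0)⁻¹ • q)))) := by
      intro q
      rw [twist_tail]
      simp only [MonoidHom.comp_apply, Subgroup.coe_subtype]
      rw [← Module.End.mul_apply, ← map_mul, out_mul_twist_zero, map_mul, Module.End.mul_apply]
    rw [Finset.sum_congr rfl fun q _ => h1 q, coresFun_apply, map_sum]
    exact Fintype.sum_equiv (MulAction.toPerm (α := G) (β := G ⧸ S) (g 0)⁻¹) _
      (fun q => A.ρ (g 0) (A.ρ (Quotient.out q) (f (twist S (fun i => g i.succ) q))))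
      fun q => rfl
  · rw [Finset.sum_comm]
    refine Finset.sum_congr rfl fun j _ => ?_
    rw [coresFun_apply, Finset.smul_sum]
    refine Finset.sum_congr rfl fun q _ => ?_
    rw [twist_contractNth]

/-- **Corestriction on inhomogeneous cochains** as a chain map. -/
noncomputable def coresCochains :
    inhomogeneousCochains (res S.subtype A) ⟶ inhomogeneousCochains A where
  f i := ModuleCat.ofHom (coresFun S A i)
  comm' i j (hij : _ = _) := by
    subst hij
    ext f : 2
    simp only [CochainComplex.of_d, ModuleCat.hom_comp, ModuleCat.hom_ofHom, LinearMap.comp_apply]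
    exact (coresFun_d S A i f).symm

lemma coresCochains_f_apply (n : ℕ) (f : (Fin n → S) → (res S.subtype A)) (g : Fin n → G) :
    ((coresCochains S A).f n).hom f g
      = ∑ q : G ⧸ S, A.ρ (Quotient.out q) (f (twist S g q)) := rfl

/-- **Corestriction** `Hⁿ(S, Res A) ⟶ Hⁿ(G, A)` for a subgroup `S` of finite index. -/
noncomputable def cores (n : ℕ) :
    groupCohomology (res S.subtype A) n ⟶ groupCohomology A n :=
  HomologicalComplex.homologyMap (coresCochains S A) n

/-- **Restriction** `Hⁿ(G, A) ⟶ Hⁿ(S, Res A)` (Mathlib's `groupCohomology.map`). -/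
noncomputable abbrev rest (n : ℕ) :
    groupCohomology A n ⟶ groupCohomology (res S.subtype A) n :=
  groupCohomology.map S.subtype (𝟙 (res S.subtype A)) n

variable {A} in
/-- Corestriction is natural in the coefficients (cochain level). -/
lemma coresCochains_naturality {B : Rep.{u} k G} (φ : A ⟶ B) :
    coresCochains S A ≫ cochainsMap (MonoidHom.id G) φ
      = cochainsMap (MonoidHom.id S) ((resFunctor S.subtype).map φ) ≫ coresCochains S B := by
  ext n f : 3
  funext g
  simp only [HomologicalComplex.comp_f, ModuleCat.hom_comp, LinearMap.comp_apply]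
  rw [coresCochains_f_apply]
  simp only [cochainsMap_f_hom, LinearMap.coe_comp, Function.comp_apply, LinearMap.compLeft_apply,
    LinearMap.funLeft_apply]
  rw [coresCochains_f_apply, map_sum]
  refine Finset.sum_congr rfl fun q _ => ?_
  exact hom_comm_apply φ _ _

variable {A} in
/-- Corestriction is natural in the coefficients. -/
lemma cores_naturality {B : Rep.{u} k G} (φ : A ⟶ B) (n : ℕ) :
    cores S A n ≫ groupCohomology.map (MonoidHom.id G) φ n
      = groupCohomology.map (MonoidHom.id S) ((resFunctor S.subtype).map φ) n ≫ cores S B n := by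
  exact (HomologicalComplex.homologyMap_comp _ _ n).symm.trans
    ((congrArg (fun f => HomologicalComplex.homologyMap f n)
      (coresCochains_naturality S φ)).trans (HomologicalComplex.homologyMap_comp _ _ n))

/-- The morphism of short complexes of cochain complexes given by corestriction. -/
noncomputable def coresShortComplex (X : ShortComplex (Rep.{u} k G)) :
    (X.map (resFunctor S.subtype)).map (cochainsFunctor k S) ⟶ X.map (cochainsFunctor k G) where
  τ₁ := coresCochains S X.X₁
  τ₂ := coresCochains S X.X₂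
  τ₃ := coresCochains S X.X₃
  comm₁₂ := coresCochains_naturality S X.f
  comm₂₃ := coresCochains_naturality S X.g

/-- Corestriction commutes with the connecting homomorphisms. -/
lemma δ_cores {X : ShortComplex (Rep.{u} k G)} (hX : X.ShortExact) (i j : ℕ) (hij : i + 1 = j) :
    groupCohomology.δ ((shortExact_res S.subtype).mpr hX) i j hij ≫ cores S X.X₁ j
      = cores S X.X₃ i ≫ groupCohomology.δ hX i j hij :=
  HomologicalComplex.HomologySequence.δ_naturality (coresShortComplex S X)
    (map_cochainsFunctor_shortExact ((shortExact_res S.subtype).mpr hX))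
    (map_cochainsFunctor_shortExact hX) i j hij

omit [S.FiniteIndex] in
/-- Restriction commutes with the connecting homomorphisms. -/
lemma δ_rest {X : ShortComplex (Rep.{u} k G)} (hX : X.ShortExact) (i j : ℕ) (hij : i + 1 = j) :
    groupCohomology.δ hX i j hij ≫ rest S X.X₁ j
      = rest S X.X₃ i ≫ groupCohomology.δ ((shortExact_res S.subtype).mpr hX) i j hij := by
  let φ : X.map (cochainsFunctor k G) ⟶
      (X.map (resFunctor S.subtype)).map (cochainsFunctor k S) :=
    { τ₁ := cochainsMap S.subtype (𝟙 (res S.subtype X.X₁))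
      τ₂ := cochainsMap S.subtype (𝟙 (res S.subtype X.X₂))
      τ₃ := cochainsMap S.subtype (𝟙 (res S.subtype X.X₃))
      comm₁₂ := rfl
      comm₂₃ := rfl }
  exact HomologicalComplex.HomologySequence.δ_naturality φ
    (map_cochainsFunctor_shortExact hX)
    (map_cochainsFunctor_shortExact ((shortExact_res S.subtype).mpr hX)) i j hij

end Cochains

end Fermat.Agent.CFT.A1
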