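import Mathlib

/-!
# PROJECT C, slice A1: the transfer on `Hom` spaces

For a finite index subgroup `S ≤ G` and `X Y : Rep k G`, the transfer
`tr : Hom_S(X, Y) → Hom_G(X, Y)`, `tr f = ∑_{gS ∈ G/S} g ∘ f ∘ g⁻¹`.

* `trHom S X Y : (res S.subtype X ⟶ res S.subtype Y) →ₗ[k] (X ⟶ Y)`;
* `trHom_resMap`: `tr (res u) = [G : S] • u`;
* `trHom_comp_left / trHom_comp_right`: naturality in both variables.
-/

set_option autoImplicit false

noncomputable section

open CategoryTheory Rep Representation

namespace Fermat.Agent.CFT.A1.Transfer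

universe w u v

variable {k : Type u} {G : Type v} [CommRing k] [Group G] (S : Subgroup G)

section Conj

variable {X Y : Rep.{w} k G}

/-- `g ∘ f ∘ g⁻¹`. -/
def conj (f : X.V →ₗ[k] Y.V) (g : G) : X.V →ₗ[k] Y.V := Y.ρ g ∘ₗ f ∘ₗ X.ρ g⁻¹

@[simp] theorem conj_apply (f : X.V →ₗ[k] Y.V) (g : G) (x : X.V) :
    conj f g x = Y.ρ g (f (X.ρ g⁻¹ x)) := rfl

theorem conj_mul (f : X.V →ₗ[k] Y.V) (g h : G) : conj f (g * h) = conj (conj f h) g := by
  ext x
  simp [mul_inv_rev, map_mul]

theorem conj_add (f f' : X.V →ₗ[k] Y.V) (g : G) : conj (f + f') g = conj f g + conj f' g := by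
  ext x
  simp

theorem conj_smul (c : k) (f : X.V →ₗ[k] Y.V) (g : G) : conj (c • f) g = c • conj f g := by
  ext x
  simp

/-- An `S`-equivariant map is fixed by conjugation by elements of `S`. -/
theorem conj_of_mem (f : res S.subtype X ⟶ res S.subtype Y) {s : G} (hs : s ∈ S) :
    conj (X := X) (Y := Y) f.hom.toLinearMap s = f.hom.toLinearMap := by
  ext x
  have h := hom_comm_apply f ⟨s, hs⟩ (X.ρ s⁻¹ x)
  change f.hom (X.ρ s (X.ρ s⁻¹ x)) = Y.ρ s (f.hom (X.ρ s⁻¹ x)) at h
  rw [← Module.End.mul_apply, ← map_mul, mul_inv_cancel, map_one, Module.End.one_apply] at h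
  exact h.symm

/-- A `G`-equivariant map is fixed by all conjugations. -/
theorem conj_of_hom (u : X ⟶ Y) (g : G) : conj (X := X) (Y := Y) u.hom.toLinearMap g =
    u.hom.toLinearMap := by
  ext x
  simp only [conj_apply]
  have h := hom_comm_apply u g (X.ρ g⁻¹ x)
  rw [← Module.End.mul_apply, ← map_mul, mul_inv_cancel, map_one, Module.End.one_apply] at h
  exact h.symm

end Conj

section Tr

variable [S.FiniteIndex] (X Y : Rep.{w} k G)

attribute [local instance] Subgroup.fintypeQuotientOfFiniteIndex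

/-- The conjugates of an `S`-equivariant map, indexed by `G ⧸ S`. -/
def conjQ (f : res S.subtype X ⟶ res S.subtype Y) (q : G ⧸ S) : X.V →ₗ[k] Y.V :=
  Quotient.liftOn' q (conj (X := X) (Y := Y) f.hom.toLinearMap) (by
    intro a b hab
    rw [QuotientGroup.leftRel_apply] at hab
    have hb : b = a * (a⁻¹ * b) := by group
    rw [hb, conj_mul, conj_of_mem S f hab])

omit [S.FiniteIndex] in
@[simp] theorem conjQ_mk (f : res S.subtype X ⟶ res S.subtype Y) (g : G) :
    conjQ S X Y f (g : G ⧸ S) = conj (X := X) (Y := Y) f.hom.toLinearMap g := rfl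

omit [S.FiniteIndex] in
theorem conjQ_smul (f : res S.subtype X ⟶ res S.subtype Y) (h : G) (q : G ⧸ S) :
    conjQ S X Y f (h • q) = conj (conjQ S X Y f q) h := by
  induction q using QuotientGroup.induction_on with
  | H g =>
    rw [show h • (g : G ⧸ S) = ((h * g : G) : G ⧸ S) from rfl, conjQ_mk, conjQ_mk, conj_mul]

/-- The underlying linear map of the transfer. -/
def trLin (f : res S.subtype X ⟶ res S.subtype Y) : X.V →ₗ[k] Y.V := ∑ q : G ⧸ S, conjQ S X Y f q

theorem conj_trLin (f : res S.subtype X ⟶ res S.subtype Y) (h : G) :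
    conj (trLin S X Y f) h = trLin S X Y f := by
  have h1 : conj (trLin S X Y f) h = ∑ q : G ⧸ S, conj (conjQ S X Y f q) h := by
    ext x
    simp [trLin, LinearMap.sum_apply, map_sum]
  rw [h1]
  simp_rw [← conjQ_smul]
  exact Equiv.sum_comp (MulAction.toPerm h) (conjQ S X Y f)

/-- **The transfer** `Hom_S(X, Y) → Hom_G(X, Y)`. -/
def tr (f : res S.subtype X ⟶ res S.subtype Y) : X ⟶ Y :=
  Rep.ofHom ⟨trLin S X Y f, fun g => by
    have h := conj_trLin S X Y f g
    ext x
    have h2 := congrArg (fun φ => φ (X.ρ g x)) h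
    simp only [conj_apply] at h2
    rw [← Module.End.mul_apply, ← map_mul, inv_mul_cancel, map_one, Module.End.one_apply] at h2
    simpa using h2.symm⟩

@[simp] theorem tr_hom_toLinearMap (f : res S.subtype X ⟶ res S.subtype Y) :
    (tr S X Y f).hom.toLinearMap = trLin S X Y f := rfl

theorem trLin_add (f f' : res S.subtype X ⟶ res S.subtype Y) :
    trLin S X Y (f + f') = trLin S X Y f + trLin S X Y f' := by
  unfold trLin
  rw [← Finset.sum_add_distrib]
  refine Finset.sum_congr rfl fun q _ => ?_
  induction q using QuotientGroup.induction_on with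
  | H g =>
    rw [conjQ_mk, conjQ_mk, conjQ_mk, ← conj_add]
    rfl

theorem trLin_smul (c : k) (f : res S.subtype X ⟶ res S.subtype Y) :
    trLin S X Y (c • f) = c • trLin S X Y f := by
  unfold trLin
  rw [Finset.smul_sum]
  refine Finset.sum_congr rfl fun q _ => ?_
  induction q using QuotientGroup.induction_on with
  | H g =>
    rw [conjQ_mk, conjQ_mk, ← conj_smul]
    rfl

/-- The transfer as a `k`-linear map. -/
def trHom : (res S.subtype X ⟶ res S.subtype Y) →ₗ[k] (X ⟶ Y) where
  toFun := tr S X Y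
  map_add' f f' := by
    apply Rep.hom_ext
    apply Representation.IntertwiningMap.ext
    exact trLin_add S X Y f f'
  map_smul' c f := by
    apply Rep.hom_ext
    apply Representation.IntertwiningMap.ext
    exact trLin_smul S X Y c f

@[simp] theorem trHom_apply (f : res S.subtype X ⟶ res S.subtype Y) :
    trHom S X Y f = tr S X Y f := rfl

variable {X Y}

/-- `tr ∘ res = [G : S]`. -/
theorem tr_resMap (u : X ⟶ Y) : tr S X Y ((resFunctor S.subtype).map u) = (S.index : k) • u := by
  apply Rep.hom_ext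
  apply Representation.IntertwiningMap.ext
  change trLin S X Y _ = _
  unfold trLin
  have h : ∀ q : G ⧸ S, conjQ S X Y ((resFunctor S.subtype).map u) q = u.hom.toLinearMap := by
    intro q
    induction q using QuotientGroup.induction_on with
    | H g =>
      rw [conjQ_mk]
      exact conj_of_hom u g
  rw [Finset.sum_congr rfl fun q _ => h q, Finset.sum_const, Finset.card_univ,
    ← Nat.card_eq_fintype_card, ← Subgroup.index_eq_card, Nat.cast_smul_eq_nsmul]
  rfl

/-- Naturality of the transfer in the first variable. -/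
theorem tr_comp_left {X' : Rep.{w} k G} (u : X' ⟶ X) (f : res S.subtype X ⟶ res S.subtype Y) :
    tr S X' Y ((resFunctor S.subtype).map u ≫ f) = u ≫ tr S X Y f := by
  apply Rep.hom_ext
  apply Representation.IntertwiningMap.ext
  change trLin S X' Y _ = trLin S X Y f ∘ₗ u.hom.toLinearMap
  unfold trLin
  ext x
  simp only [LinearMap.sum_apply, LinearMap.comp_apply]
  refine Finset.sum_congr rfl fun q _ => ?_
  induction q using QuotientGroup.induction_on with
  | H g =>
    rw [conjQ_mk, conjQ_mk]
    simp only [conj_apply]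
    have h := hom_comm_apply u g⁻¹ x
    change Y.ρ g (f.hom (u.hom (X'.ρ g⁻¹ x))) = Y.ρ g (f.hom (X.ρ g⁻¹ (u.hom x)))
    rw [h]

/-- Naturality of the transfer in the second variable. -/
theorem tr_comp_right {Y' : Rep.{w} k G} (f : res S.subtype X ⟶ res S.subtype Y) (v : Y ⟶ Y') :
    tr S X Y' (f ≫ (resFunctor S.subtype).map v) = tr S X Y f ≫ v := by
  apply Rep.hom_ext
  apply Representation.IntertwiningMap.ext
  change trLin S X Y' _ = v.hom.toLinearMap ∘ₗ trLin S X Y f
  unfold trLin
  ext x
  simp only [LinearMap.sum_apply, LinearMap.comp_apply, map_sum]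
  refine Finset.sum_congr rfl fun q _ => ?_
  induction q using QuotientGroup.induction_on with
  | H g =>
    rw [conjQ_mk, conjQ_mk]
    simp only [conj_apply]
    have h := hom_comm_apply v g (f.hom (X.ρ g⁻¹ x))
    change Y'.ρ g (v.hom (f.hom (X.ρ g⁻¹ x))) = v.hom (Y.ρ g (f.hom (X.ρ g⁻¹ x)))
    rw [h]

end Tr

end Fermat.Agent.CFT.A1.Transfer
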