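import Mathlib
import Fermat.Agent.CFT.A1.Transfer
import Fermat.Agent.CFT.A1.BarCompare

/-!
# PROJECT C, slice A1 (second line): corestriction via the transfer on `Hom_S(Res bar_G, A)`

For a finite index subgroup `S ≤ G` and `A : Rep k G`:

* `cores S A n : groupCohomology (res S.subtype A) n ⟶ groupCohomology A n`;
* `res_comp_cores : map S.subtype (𝟙 _) n ≫ cores S A n = [G : S] • 𝟙`, with the HONEST restriction
  `groupCohomology.map S.subtype (𝟙 _) n` of Mathlib.
-/

set_option autoImplicit false

noncomputable section

open CategoryTheory Rep groupCohomology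

namespace Fermat.Agent.CFT.A1.CoresAlt

open Fermat.Agent.CFT.A1.Transfer Fermat.Agent.CFT.A1.BarCompare

universe u

variable {k G : Type u} [CommRing k] [Group G] (S : Subgroup G) (A : Rep.{u} k G)

/-- `Hom_G(bar_G, A)`. -/
abbrev cochG : CochainComplex (ModuleCat k) ℕ := (barComplex k G).linearYonedaObj k A

/-- `Hom_S(Res bar_G, Res A)`. -/
abbrev cochMid : CochainComplex (ModuleCat k) ℕ :=
  (resBar (k := k) S).linearYonedaObj k (res S.subtype A)

/-- `Hom_S(bar_S, Res A)`. -/
abbrev cochS : CochainComplex (ModuleCat k) ℕ :=
  (barComplex k S).linearYonedaObj k (res S.subtype A)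

/-- The inclusion `Hom_G(bar_G, A) → Hom_S(Res bar_G, Res A)`. -/
def inclC : cochG A ⟶ cochMid S A where
  f n := ModuleCat.ofHom ((resFunctor (k := k) S.subtype).mapLinearMap k
    (X := (barComplex k G).X n) (Y := A))
  comm' i j _ := by
    ext (f : (barComplex k G).X i ⟶ A)
    exact ((resFunctor S.subtype).map_comp ((barComplex k G).d j i) f).symm

@[simp] theorem inclC_f_apply (n : ℕ) (f : (barComplex k G).X n ⟶ A) :
    (inclC S A).f n f = (resFunctor S.subtype).map f := rfl

theorem inhomogeneousCochainsIso_hom_f_apply {H : Type u} [Group H] (B : Rep.{u} k H) (n : ℕ)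
    (c : (Fin n → H) → B) :
    (inhomogeneousCochainsIso B).hom.f n c = freeLift k H B c := rfl

/-- The honest restriction of cochains factors through `inclC` and `iotaStar`. -/
theorem cochainsMap_eq :
    cochainsMap S.subtype (𝟙 (res S.subtype A)) ≫ (inhomogeneousCochainsIso (res S.subtype A)).hom =
      (inhomogeneousCochainsIso A).hom ≫ inclC S A ≫ iotaStar S (res S.subtype A) := by
  ext n (c : (Fin n → G) → A)
  change freeLift k S (res S.subtype A) ((cochainsMap S.subtype (𝟙 (res S.subtype A))).f n c) =
    iotaF S n ≫ (resFunctor S.subtype).map (freeLift k G A c)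
  refine free_ext k S _ _ _ fun x => ?_
  rw [Rep.hom_comp, Representation.IntertwiningMap.comp_apply, iotaF_single_single]
  change (freeLift k S (res S.subtype A) _).hom _ = (freeLift k G A c).hom _
  simp [cochainsMap_f_hom]
  rfl

variable [S.FiniteIndex]

/-- The transfer `Hom_S(Res bar_G, Res A) → Hom_G(bar_G, A)`. -/
def trC : cochMid S A ⟶ cochG A where
  f n := ModuleCat.ofHom (trHom S ((barComplex k G).X n) A)
  comm' i j _ := by
    ext (f : (resFunctor S.subtype).obj ((barComplex k G).X i) ⟶ res S.subtype A)
    exact (tr_comp_left S ((barComplex k G).d j i) f).symm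

@[simp] theorem trC_f_apply (n : ℕ) (f : (resBar (k := k) S).X n ⟶ res S.subtype A) :
    (trC S A).f n f = tr S ((barComplex k G).X n) A f := rfl

theorem inclC_comp_trC : inclC S A ≫ trC S A = (S.index : k) • 𝟙 (cochG A) := by
  ext n f
  change tr S _ A ((resFunctor S.subtype).map f) = (S.index : k) • f
  exact tr_resMap S f

omit [S.FiniteIndex] in
theorem homologyMap_smul' {K L : CochainComplex (ModuleCat k) ℕ} (r : k) (φ : K ⟶ L) (n : ℕ) :
    HomologicalComplex.homologyMap (r • φ) n = r • HomologicalComplex.homologyMap φ n := by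
  have h : (HomologicalComplex.shortComplexFunctor (ModuleCat k) (ComplexShape.up ℕ) n).map (r • φ)
      = r • (HomologicalComplex.shortComplexFunctor (ModuleCat k) (ComplexShape.up ℕ) n).map φ := by
    ext <;> rfl
  unfold HomologicalComplex.homologyMap
  rw [h, ShortComplex.homologyMap_smul]
  rfl

omit [S.FiniteIndex] in
/-- `iotaStar` induces an isomorphism on cohomology. -/
def iotaIso (n : ℕ) : (cochMid S A).homology n ≅ (cochS S A).homology n :=
  haveI : IsIso (HomologicalComplex.homologyMap (iotaStar S (res S.subtype A)) n) :=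
    (quasiIsoAt_iff_isIso_homologyMap _ _).1 inferInstance
  asIso (HomologicalComplex.homologyMap (iotaStar S (res S.subtype A)) n)

/-- Corestriction, on the homology of the inhomogeneous cochain complexes. -/
def coresH (n : ℕ) : (inhomogeneousCochains (res S.subtype A)).homology n ⟶
    (inhomogeneousCochains A).homology n :=
  HomologicalComplex.homologyMap (inhomogeneousCochainsIso (res S.subtype A)).hom n ≫
    (iotaIso S A n).inv ≫ HomologicalComplex.homologyMap (trC S A) n ≫
      HomologicalComplex.homologyMap (inhomogeneousCochainsIso A).inv n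

theorem resH_comp_coresH (n : ℕ) :
    HomologicalComplex.homologyMap (cochainsMap S.subtype (𝟙 (res S.subtype A))) n ≫ coresH S A n =
      (S.index : k) • 𝟙 ((inhomogeneousCochains A).homology n) := by
  have h1 : HomologicalComplex.homologyMap (cochainsMap S.subtype (𝟙 (res S.subtype A))) n ≫
      HomologicalComplex.homologyMap (inhomogeneousCochainsIso (res S.subtype A)).hom n =
      HomologicalComplex.homologyMap (inhomogeneousCochainsIso A).hom n ≫
        HomologicalComplex.homologyMap (inclC S A) n ≫ (iotaIso S A n).hom := by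
    rw [← HomologicalComplex.homologyMap_comp, cochainsMap_eq, HomologicalComplex.homologyMap_comp,
      HomologicalComplex.homologyMap_comp]
    rfl
  have h2 : HomologicalComplex.homologyMap (inclC S A) n ≫
      HomologicalComplex.homologyMap (trC S A) n = (S.index : k) • 𝟙 _ := by
    rw [← HomologicalComplex.homologyMap_comp, inclC_comp_trC, homologyMap_smul',
      HomologicalComplex.homologyMap_id]
  unfold coresH
  rw [reassoc_of% h1, Iso.hom_inv_id_assoc, reassoc_of% h2, Linear.smul_comp, Linear.comp_smul,
    Category.id_comp, ← HomologicalComplex.homologyMap_comp, Iso.hom_inv_id,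
    HomologicalComplex.homologyMap_id]

section Naturality

omit [S.FiniteIndex]

/-- Postcomposition with `ψ`, as a map of `Hom` complexes. -/
def postComp {H : Type u} [Group H] (X : ChainComplex (Rep.{u} k H) ℕ) {Y Y' : Rep.{u} k H}
    (ψ : Y ⟶ Y') : X.linearYonedaObj k Y ⟶ X.linearYonedaObj k Y' where
  f n := ModuleCat.ofHom (Linear.rightComp k (X.X n) ψ)
  comm' i j _ := by
    ext (f : X.X i ⟶ Y)
    exact (Category.assoc (X.d j i) f ψ).symm

@[simp] theorem postComp_f_apply {H : Type u} [Group H] (X : ChainComplex (Rep.{u} k H) ℕ)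
    {Y Y' : Rep.{u} k H} (ψ : Y ⟶ Y') (n : ℕ) (f : X.X n ⟶ Y) :
    (postComp X ψ).f n f = f ≫ ψ := rfl

variable {A} {B : Rep.{u} k G} (φ : A ⟶ B)

theorem cochainsMap_id_comp_iso {H : Type u} [Group H] {Y Y' : Rep.{u} k H} (ψ : Y ⟶ Y') :
    cochainsMap (MonoidHom.id H) ψ ≫ (inhomogeneousCochainsIso Y').hom =
      (inhomogeneousCochainsIso Y).hom ≫ postComp (barComplex k H) ψ := by
  ext n (c : (Fin n → H) → Y)
  change freeLift k H Y' ((cochainsMap (MonoidHom.id H) ψ).f n c) = freeLift k H Y c ≫ ψ
  refine free_ext k H _ _ _ fun x => ?_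
  rw [Rep.hom_comp, Representation.IntertwiningMap.comp_apply]
  simp [cochainsMap_f_hom]

theorem postComp_comp_iotaStar {Y Y' : Rep.{u} k S} (ψ : Y ⟶ Y') :
    postComp (resBar (k := k) S) ψ ≫ iotaStar S Y' = iotaStar S Y ≫ postComp (barComplex k S) ψ := by
  ext n (f : (resBar (k := k) S).X n ⟶ Y)
  exact (Category.assoc ((iota S).f n) f ψ).symm

theorem postComp_comp_inclC :
    postComp (barComplex k G) φ ≫ inclC S B =
      inclC S A ≫ postComp (resBar (k := k) S) ((resFunctor S.subtype).map φ) := by
  ext n (f : (barComplex k G).X n ⟶ A)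
  exact (resFunctor S.subtype).map_comp f φ

end Naturality

theorem postComp_comp_trC {B : Rep.{u} k G} (φ : A ⟶ B) :
    postComp (resBar (k := k) S) ((resFunctor S.subtype).map φ) ≫ trC S B =
      trC S A ≫ postComp (barComplex k G) φ := by
  ext n (f : (resBar (k := k) S).X n ⟶ res S.subtype A)
  exact tr_comp_right S f φ

/-- Naturality of the corestriction in the coefficients. -/
theorem coresH_naturality {B : Rep.{u} k G} (φ : A ⟶ B) (n : ℕ) :
    coresH S A n ≫ HomologicalComplex.homologyMap (cochainsMap (MonoidHom.id G) φ) n =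
      HomologicalComplex.homologyMap
        (cochainsMap (MonoidHom.id S) ((resFunctor S.subtype).map φ)) n ≫ coresH S B n := by
  have e1 : HomologicalComplex.homologyMap
        (cochainsMap (MonoidHom.id S) ((resFunctor S.subtype).map φ)) n ≫
      HomologicalComplex.homologyMap (inhomogeneousCochainsIso (res S.subtype B)).hom n =
      HomologicalComplex.homologyMap (inhomogeneousCochainsIso (res S.subtype A)).hom n ≫
        HomologicalComplex.homologyMap
          (postComp (barComplex k S) ((resFunctor S.subtype).map φ)) n := by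
    rw [← HomologicalComplex.homologyMap_comp, ← HomologicalComplex.homologyMap_comp,
      cochainsMap_id_comp_iso]
  have e2 : HomologicalComplex.homologyMap
        (postComp (barComplex k S) ((resFunctor S.subtype).map φ)) n ≫ (iotaIso S B n).inv =
      (iotaIso S A n).inv ≫ HomologicalComplex.homologyMap
        (postComp (resBar (k := k) S) ((resFunctor S.subtype).map φ)) n := by
    rw [Iso.comp_inv_eq, Category.assoc, Iso.eq_inv_comp]
    change HomologicalComplex.homologyMap _ n ≫ HomologicalComplex.homologyMap _ n =
      HomologicalComplex.homologyMap _ n ≫ HomologicalComplex.homologyMap _ n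
    rw [← HomologicalComplex.homologyMap_comp, ← HomologicalComplex.homologyMap_comp,
      postComp_comp_iotaStar]
  have e3 : HomologicalComplex.homologyMap
        (postComp (resBar (k := k) S) ((resFunctor S.subtype).map φ)) n ≫
      HomologicalComplex.homologyMap (trC S B) n =
      HomologicalComplex.homologyMap (trC S A) n ≫
        HomologicalComplex.homologyMap (postComp (barComplex k G) φ) n := by
    rw [← HomologicalComplex.homologyMap_comp, ← HomologicalComplex.homologyMap_comp,
      postComp_comp_trC]
  have e4 : HomologicalComplex.homologyMap (postComp (barComplex k G) φ) n ≫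
      HomologicalComplex.homologyMap (inhomogeneousCochainsIso B).inv n =
      HomologicalComplex.homologyMap (inhomogeneousCochainsIso A).inv n ≫
        HomologicalComplex.homologyMap (cochainsMap (MonoidHom.id G) φ) n := by
    rw [← HomologicalComplex.homologyMap_comp, ← HomologicalComplex.homologyMap_comp]
    congr 1
  unfold coresH
  simp only [Category.assoc]
  rw [reassoc_of% e1, reassoc_of% e2, reassoc_of% e3, e4]

/-- **Corestriction** `Hⁿ(S, Res A) ⟶ Hⁿ(G, A)` for a finite index subgroup `S ≤ G`. -/
def cores (n : ℕ) : groupCohomology (res S.subtype A) n ⟶ groupCohomology A n :=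
  coresH S A n

/-- **`cores ∘ res = [G : S]`**, with Mathlib's restriction `groupCohomology.map S.subtype (𝟙 _)`. -/
theorem res_comp_cores (n : ℕ) :
    groupCohomology.map S.subtype (𝟙 (res S.subtype A)) n ≫ cores S A n =
      (S.index : k) • 𝟙 (groupCohomology A n) :=
  resH_comp_coresH S A n

/-- Naturality of `cores` in the coefficient module. -/
theorem cores_naturality {B : Rep.{u} k G} (φ : A ⟶ B) (n : ℕ) :
    cores S A n ≫ groupCohomology.map (MonoidHom.id G) φ n =
      groupCohomology.map (MonoidHom.id S) ((resFunctor S.subtype).map φ) n ≫ cores S B n :=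
  coresH_naturality S A φ n

/-! ### First consequences -/

/-- Elementwise form of `cores ∘ res = [G : S]`. -/
theorem cores_res_apply (n : ℕ) (x : groupCohomology A n) :
    cores S A n (groupCohomology.map S.subtype (𝟙 (res S.subtype A)) n x) = (S.index : k) • x := by
  have h := congrArg (fun f => f x) (res_comp_cores S A n)
  simpa using h

/-- A class that restricts to zero on a subgroup of finite index is killed by the index. -/
theorem index_smul_eq_zero_of_res_eq_zero (n : ℕ) (x : groupCohomology A n)
    (hx : groupCohomology.map S.subtype (𝟙 (res S.subtype A)) n x = 0) :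
    (S.index : k) • x = 0 := by
  rw [← cores_res_apply, hx, map_zero]

/-- If `Hⁿ(S, A) = 0` for a subgroup of finite index, then `[G : S]` kills `Hⁿ(G, A)`. -/
theorem index_smul_eq_zero_of_isZero (n : ℕ)
    (h : Limits.IsZero (groupCohomology (res S.subtype A) n)) (x : groupCohomology A n) :
    (S.index : k) • x = 0 :=
  index_smul_eq_zero_of_res_eq_zero S A n x
    (@Subsingleton.elim _ (ModuleCat.subsingleton_of_isZero h) _ _)

/-- **Sylow reduction**: if the index of `S` is invertible in `k` and `Hⁿ(S, A) = 0`, then
`Hⁿ(G, A) = 0`. -/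
theorem isZero_of_isZero_res_of_isUnit_index (n : ℕ) (hu : IsUnit (S.index : k))
    (h : Limits.IsZero (groupCohomology (res S.subtype A) n)) :
    Limits.IsZero (groupCohomology A n) := by
  apply @ModuleCat.isZero_of_subsingleton _ _ _ ?_
  refine ⟨fun x y => ?_⟩
  have hx := index_smul_eq_zero_of_isZero S A n h (x - y)
  have h2 := congrArg (fun z => ((hu.unit⁻¹ : kˣ) : k) • z) hx
  simp only [smul_smul, IsUnit.val_inv_mul, one_smul, smul_zero] at h2
  exact sub_eq_zero.mp h2

/-- Restriction to a subgroup whose index is invertible in `k` is injective. -/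
theorem res_injective_of_isUnit_index (n : ℕ) (hu : IsUnit (S.index : k)) :
    Function.Injective (groupCohomology.map S.subtype (𝟙 (res S.subtype A)) n) := by
  intro x y hxy
  have hx := index_smul_eq_zero_of_res_eq_zero S A n (x - y) (by rw [map_sub, hxy, sub_self])
  have h2 := congrArg (fun z => ((hu.unit⁻¹ : kˣ) : k) • z) hx
  simp only [smul_smul, IsUnit.val_inv_mul, one_smul, smul_zero] at h2
  exact sub_eq_zero.mp h2

omit [S.FiniteIndex] in
/-- For a finite group, `|G|` kills `Hⁿ⁺¹(G, A)`. -/
theorem card_smul_eq_zero [Finite G] (n : ℕ) (x : groupCohomology A (n + 1)) :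
    (Nat.card G : k) • x = 0 := by
  have h := index_smul_eq_zero_of_isZero (⊥ : Subgroup G) A (n + 1)
    (isZero_groupCohomology_succ_of_subsingleton _ n) x
  rwa [Subgroup.index_bot] at h

end Fermat.Agent.CFT.A1.CoresAlt
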