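/-
PROJECT C, slice A1: dimension shifting.  Every `G`-representation embeds into a coinduced
representation with vanishing higher cohomology; a family of endomorphisms of `Hⁿ(G, -)` that
commutes with all connecting homomorphisms and vanishes in degree `0` vanishes in all degrees.
-/
import Mathlib

set_option autoImplicit false

namespace Fermat.Agent.CFT.A1

open CategoryTheory Rep groupCohomology Limits

universe u

variable {k G : Type u} [CommRing k] [Group G]

/-- The coinduced envelope `Coind_1^G(Res A)` of a representation. -/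
noncomputable abbrev envelope (A : Rep.{u} k G) : Rep.{u} k G :=
  coind (⊥ : Subgroup G).subtype (res (⊥ : Subgroup G).subtype A)

/-- The unit `A ⟶ Coind_1^G(Res A)`, `a ↦ (g ↦ g • a)`. -/
noncomputable def toEnvelope (A : Rep.{u} k G) : A ⟶ envelope A :=
  resCoindToHom (⊥ : Subgroup G).subtype A (res (⊥ : Subgroup G).subtype A) (𝟙 _)

lemma toEnvelope_apply (A : Rep.{u} k G) (a : A) (g : G) :
    ((toEnvelope A).hom a).1 g = A.ρ g a := rfl

instance mono_toEnvelope (A : Rep.{u} k G) : Mono (toEnvelope A) := by
  rw [Rep.mono_iff_injective]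
  intro a b h
  have h1 : ((toEnvelope A).hom a).1 1 = ((toEnvelope A).hom b).1 1 := by
    have := congrArg (fun f => f.1 1) h
    exact this
  rw [toEnvelope_apply, toEnvelope_apply, map_one] at h1
  exact h1

/-- Higher cohomology of the envelope vanishes (Shapiro + trivial group). -/
lemma isZero_groupCohomology_envelope (A : Rep.{u} k G) (n : ℕ) :
    IsZero (groupCohomology (envelope A) (n + 1)) :=
  (isZero_groupCohomology_succ_of_subsingleton (res (⊥ : Subgroup G).subtype A) n).of_iso
    (groupCohomology.coindIso (res (⊥ : Subgroup G).subtype A) (n + 1))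

/-- The dimension shifting short complex `A ⟶ envelope A ⟶ coker`. -/
noncomputable def shiftSeq (A : Rep.{u} k G) : ShortComplex (Rep.{u} k G) :=
  ShortComplex.mk (toEnvelope A) (cokernel.π (toEnvelope A)) (cokernel.condition _)

lemma shiftSeq_shortExact (A : Rep.{u} k G) : (shiftSeq A).ShortExact :=
  ShortComplex.ShortExact.mk' (ShortComplex.exact_cokernel (toEnvelope A))
    (mono_toEnvelope A) (inferInstanceAs (Epi (cokernel.π (toEnvelope A))))

/-- The connecting map of the dimension shifting sequence is an epimorphism. -/
lemma epi_δ_shiftSeq (A : Rep.{u} k G) (n : ℕ) :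
    Epi (δ (shiftSeq_shortExact A) n (n + 1) rfl) :=
  epi_δ_of_isZero (shiftSeq_shortExact A) n (isZero_groupCohomology_envelope A n)

/-- **Dimension shifting principle.**  A family of endomorphisms of `Hⁿ(G, -)` commuting with
all connecting homomorphisms and vanishing in degree `0` vanishes identically. -/
theorem eq_zero_of_δ_compatible
    (T : ∀ (n : ℕ) (A : Rep.{u} k G), groupCohomology A n ⟶ groupCohomology A n)
    (hδ : ∀ (X : ShortComplex (Rep.{u} k G)) (hX : X.ShortExact) (i j : ℕ) (hij : i + 1 = j),
      δ hX i j hij ≫ T j X.X₁ = T i X.X₃ ≫ δ hX i j hij)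
    (h0 : ∀ A, T 0 A = 0) : ∀ n A, T n A = 0 := by
  intro n
  induction n with
  | zero => exact h0
  | succ n ih =>
    intro A
    have hepi := epi_δ_shiftSeq A n
    have h := hδ (shiftSeq A) (shiftSeq_shortExact A) n (n + 1) rfl
    rw [ih, zero_comp] at h
    exact (cancel_epi (δ (shiftSeq_shortExact A) n (n + 1) rfl)).mp (h.trans comp_zero.symm)

end Fermat.Agent.CFT.A1
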