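/-
PROJECT C, slice A1: `cores ∘ res = [G : S]`.
-/
import Fermat.Agent.CFT.A1.Cores
import Fermat.Agent.CFT.A1.DimShift

set_option autoImplicit false

namespace Fermat.Agent.CFT.A1

open CategoryTheory Rep groupCohomology Limits

universe u

variable {k G : Type u} [CommRing k] [Group G]

/-- A `0`-cocycle takes invariant values. -/
lemma iCocycles_zero_invariant (A : Rep.{u} k G) (z : cocycles A 0) (g : G) (x : Fin 0 → G) :
    A.ρ g (iCocycles A 0 z x) = iCocycles A 0 z x := by
  have h : (inhomogeneousCochains A).d 0 1 (iCocycles A 0 z) = 0 := by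
    have := (inhomogeneousCochains A).iCycles_d 0 1
    have h2 := congrArg (fun φ => φ.hom z) this
    simpa using h2
  have h3 := congrFun h (fun _ => g)
  rw [inhomogeneousCochains.d_def, inhomogeneousCochains.d_hom_apply] at h3
  simp only [Fin.sum_univ_succ, Finset.univ_eq_empty, Finset.sum_empty] at h3
  have e1 : (fun i : Fin 0 => g) = x := Subsingleton.elim _ _
  have e2 : (Fin.contractNth 0 (fun x1 x2 => x1 * x2) fun _ : Fin 1 => g) = x :=
    Subsingleton.elim _ _
  rw [e1, e2] at h3
  simp only [Fin.val_zero, zero_add, pow_one, neg_smul, one_smul, add_zero] at h3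
  exact add_neg_eq_zero.mp h3

variable (S : Subgroup G) [S.FiniteIndex]

attribute [local instance] Subgroup.fintypeQuotientOfFiniteIndex

/-- On `0`-cocycles, `cores ∘ res` is multiplication by the index (cochain level). -/
lemma coresCochains_rest_zero (A : Rep.{u} k G) (z : cocycles A 0) :
    ((coresCochains S A).f 0).hom
      (((cochainsMap S.subtype (𝟙 (res S.subtype A))).f 0).hom (iCocycles A 0 z))
      = (S.index : k) • iCocycles A 0 z := by
  funext g
  rw [coresCochains_f_apply]
  have h : ∀ q : G ⧸ S, A.ρ (Quotient.out q)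
      ((((cochainsMap S.subtype (𝟙 (res S.subtype A))).f 0).hom (iCocycles A 0 z)) (twist S g q))
      = iCocycles A 0 z g := by
    intro q
    have e : (((cochainsMap S.subtype (𝟙 (res S.subtype A))).f 0).hom (iCocycles A 0 z))
        (twist S g q) = iCocycles A 0 z g := by
      simp only [cochainsMap_f_hom, LinearMap.coe_comp, Function.comp_apply,
        LinearMap.compLeft_apply, LinearMap.funLeft_apply]
      have : (⇑S.subtype ∘ twist S g q) = g := Subsingleton.elim _ _
      rw [this]
      rfl
    rw [e, iCocycles_zero_invariant]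
  rw [Finset.sum_congr rfl fun q _ => h q, Finset.sum_const, Finset.card_univ,
    Pi.smul_apply, ← Nat.cast_smul_eq_nsmul k, Subgroup.index_eq_card, Nat.card_eq_fintype_card]

/-- `cores ∘ res = [G : S]` in degree `0`. -/
lemma cores_rest_zero (A : Rep.{u} k G) :
    rest S A 0 ≫ cores S A 0 = (S.index : k) • 𝟙 (groupCohomology A 0) := by
  ext x
  induction x using groupCohomology_induction_on with | h z => ?_
  have hz : HomologicalComplex.cyclesMap
      (cochainsMap S.subtype (𝟙 (res S.subtype A)) ≫ coresCochains S A) 0 z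
      = (S.index : k) • z := by
    apply (ModuleCat.mono_iff_injective (iCocycles A 0)).1 inferInstance
    have h1 := congrArg (fun φ => φ.hom z) (HomologicalComplex.cyclesMap_i
      (cochainsMap S.subtype (𝟙 (res S.subtype A)) ≫ coresCochains S A) 0)
    simp only [ModuleCat.hom_comp, LinearMap.comp_apply, HomologicalComplex.comp_f] at h1
    rw [map_smul]
    exact h1.trans (coresCochains_rest_zero S A z)
  have h2 : rest S A 0 ≫ cores S A 0 = HomologicalComplex.homologyMap
      (cochainsMap S.subtype (𝟙 (res S.subtype A)) ≫ coresCochains S A) 0 :=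
    (HomologicalComplex.homologyMap_comp _ _ 0).symm
  have h3 := congrArg (fun φ => φ.hom z) (HomologicalComplex.homologyπ_naturality
      (cochainsMap S.subtype (𝟙 (res S.subtype A)) ≫ coresCochains S A) 0)
  simp only [ModuleCat.hom_comp, LinearMap.comp_apply] at h3
  rw [h2]
  refine h3.trans ?_
  rw [hz, map_smul]
  rfl

/-- **`cores ∘ res = [G : S]`** in every degree. -/
theorem cores_rest (A : Rep.{u} k G) (n : ℕ) :
    rest S A n ≫ cores S A n = (S.index : k) • 𝟙 (groupCohomology A n) := by
  have key := eq_zero_of_δ_compatible (k := k) (G := G)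
    (fun n A => rest S A n ≫ cores S A n - (S.index : k) • 𝟙 (groupCohomology A n))
    (fun X hX i j hij => by
      have e1 : δ hX i j hij ≫ rest S X.X₁ j ≫ cores S X.X₁ j
          = (rest S X.X₃ i ≫ cores S X.X₃ i) ≫ δ hX i j hij :=
        calc δ hX i j hij ≫ rest S X.X₁ j ≫ cores S X.X₁ j
            = (δ hX i j hij ≫ rest S X.X₁ j) ≫ cores S X.X₁ j := (Category.assoc _ _ _).symm
          _ = (rest S X.X₃ i ≫ δ ((shortExact_res S.subtype).mpr hX) i j hij) ≫ cores S X.X₁ j :=
              congrArg (· ≫ cores S X.X₁ j) (δ_rest S hX i j hij)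
          _ = rest S X.X₃ i ≫ (δ ((shortExact_res S.subtype).mpr hX) i j hij ≫ cores S X.X₁ j) :=
              Category.assoc _ _ _
          _ = rest S X.X₃ i ≫ (cores S X.X₃ i ≫ δ hX i j hij) :=
              congrArg (rest S X.X₃ i ≫ ·) (δ_cores S hX i j hij)
          _ = (rest S X.X₃ i ≫ cores S X.X₃ i) ≫ δ hX i j hij := (Category.assoc _ _ _).symm
      rw [Preadditive.comp_sub, Preadditive.sub_comp, Linear.comp_smul, Linear.smul_comp,
        Category.comp_id, Category.id_comp, e1])
    (fun A => by rw [cores_rest_zero, sub_self])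
  exact sub_eq_zero.mp (key n A)

/-- `Hⁿ(G, A)` is killed by `[G : S]` as soon as `Hⁿ(S, Res A)` vanishes. -/
theorem index_smul_eq_zero_of_isZero (A : Rep.{u} k G) (n : ℕ)
    (h : IsZero (groupCohomology (res S.subtype A) n)) (x : groupCohomology A n) :
    (S.index : k) • x = 0 := by
  have h1 := congrArg (fun φ => φ.hom x) (cores_rest S A n)
  simp only [ModuleCat.hom_comp, LinearMap.comp_apply] at h1
  have h2 : (rest S A n).hom x = 0 := by
    have := (ModuleCat.isZero_iff_subsingleton.mp h)
    exact Subsingleton.elim _ _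
  rw [h2, map_zero] at h1
  exact h1.symm

end Fermat.Agent.CFT.A1
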