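/-
PROJECT C, slice A1: corestriction in degree `0` is the norm `N_{G/S}` on invariants.
-/
import Fermat.Agent.CFT.A1.Cores

set_option autoImplicit false

namespace Fermat.Agent.CFT.A1

open CategoryTheory Rep groupCohomology Limits

universe u

variable {k G : Type u} [CommRing k] [Group G] (S : Subgroup G) [S.FiniteIndex] (A : Rep.{u} k G)

attribute [local instance] Subgroup.fintypeQuotientOfFiniteIndex

/-- The value of the invariant attached to a class in `H⁰`, in terms of a representing cocycle. -/
lemma H0Iso_hom_π_val (B : Rep.{u} k G) (z : cocycles B 0) :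
    ((H0Iso B).hom (groupCohomology.π B 0 z)).1 = iCocycles B 0 z default := by
  rw [π_comp_H0Iso_hom_apply]
  have := cocyclesIso₀_hom_comp_f_apply B z
  exact this

/-- **Corestriction in degree `0` is the relative norm.** -/
theorem H0Iso_hom_cores (x : groupCohomology (res S.subtype A) 0) :
    ((H0Iso A).hom ((cores S A 0).hom x)).1
      = ∑ q : G ⧸ S, A.ρ (Quotient.out q) ((H0Iso (res S.subtype A)).hom x).1 := by
  induction x using groupCohomology_induction_on with | h z => ?_
  have h1 := congrArg (fun φ => φ.hom z)
    (HomologicalComplex.homologyπ_naturality (coresCochains S A) 0)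
  simp only [ModuleCat.hom_comp, LinearMap.comp_apply] at h1
  have h2 : (cores S A 0).hom (groupCohomology.π (res S.subtype A) 0 z)
      = groupCohomology.π A 0 ((HomologicalComplex.cyclesMap (coresCochains S A) 0).hom z) := h1
  rw [h2, H0Iso_hom_π_val]
  have h3 := congrArg (fun φ => φ.hom z) (HomologicalComplex.cyclesMap_i (coresCochains S A) 0)
  simp only [ModuleCat.hom_comp, LinearMap.comp_apply] at h3
  have h4 : iCocycles A 0 ((HomologicalComplex.cyclesMap (coresCochains S A) 0).hom z) default
      = ((coresCochains S A).f 0).hom (iCocycles (res S.subtype A) 0 z) default :=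
    congrFun h3 default
  rw [h4, coresCochains_f_apply]
  refine Finset.sum_congr rfl fun q _ => ?_
  have h5 : ((H0Iso (res S.subtype A)).hom (groupCohomology.π (res S.subtype A) 0 z)).1
      = iCocycles (res S.subtype A) 0 z default := by
    rw [π_comp_H0Iso_hom_apply]
    exact cocyclesIso₀_hom_comp_f_apply (res S.subtype A) z
  rw [h5]
  have h6 : twist S (default : Fin 0 → G) q = default := Subsingleton.elim _ _
  rw [h6]

end Fermat.Agent.CFT.A1
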