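import Mathlib
import Fermat.Agent.CFT.A1.BarCompare

/-!
# PROJECT C, slice A1: Shapiro's isomorphism as an explicit map

For a subgroup `S ≤ G` and `A : Rep k S`, the map
`groupCohomology.map S.subtype (ev1 S A) n : Hⁿ(G, Coind_S^G A) ⟶ Hⁿ(S, A)`
(restriction to `S` followed by evaluation at `1`) is an isomorphism in every degree
(`isIso_map_ev1`, `shapiroIso`).
-/

set_option autoImplicit false

noncomputable section

open CategoryTheory Rep groupCohomology

namespace Fermat.Agent.CFT.A1.ShapiroMap

open Fermat.Agent.CFT.A1.BarCompare

universe u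

variable {k G : Type u} [CommRing k] [Group G] (S : Subgroup G) (A : Rep.{u} k S)

/-- Evaluation at `1`: the counit `Res Coind A ⟶ A`. -/
def ev1 : res S.subtype (coind S.subtype A) ⟶ A :=
  (resCoindHomEquiv.{u} S.subtype (coind S.subtype A) A).symm (𝟙 _)

theorem ev1_hom_apply (f : coind S.subtype A) : (ev1 S A).hom f = f.1 1 := rfl

/-- The adjunction isomorphism of `Hom` complexes (Mathlib's Shapiro). -/
abbrev adjIso : (resBar (k := k) S).linearYonedaObj k A ≅
    (barComplex k G).linearYonedaObj k (coind S.subtype A) :=
  linearYonedaObjResProjectiveResolutionIso (barResolution k G) A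

theorem adjIso_inv_f_apply (n : ℕ) (f : (barComplex k G).X n ⟶ coind S.subtype A) :
    (adjIso S A).inv.f n f = (resCoindHomEquiv.{u} S.subtype _ A).symm f := rfl

/-- The cochain-level factorisation of `restrict, then evaluate at 1`. -/
theorem cochainsMap_ev1 :
    cochainsMap S.subtype (ev1 S A) ≫ (inhomogeneousCochainsIso A).hom =
      (inhomogeneousCochainsIso (coind S.subtype A)).hom ≫ (adjIso S A).inv ≫ iotaStar S A := by
  ext n (c : (Fin n → G) → coind S.subtype A)
  change freeLift k S A ((cochainsMap S.subtype (ev1 S A)).f n c) =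
    iotaF S n ≫ (resCoindHomEquiv.{u} S.subtype _ A).symm (freeLift k G (coind S.subtype A) c)
  refine free_ext k S _ _ _ fun x => ?_
  rw [Rep.hom_comp, Representation.IntertwiningMap.comp_apply, iotaF_single_single]
  simp [cochainsMap_f_hom]
  rfl

/-- **Shapiro's lemma, explicit form**: restriction to `S` followed by evaluation at `1` is an
isomorphism `Hⁿ(G, Coind_S^G A) ≅ Hⁿ(S, A)`. -/
instance isIso_map_ev1 (n : ℕ) : IsIso (groupCohomology.map S.subtype (ev1 S A) n) := by
  have h : HomologicalComplex.homologyMap (cochainsMap S.subtype (ev1 S A)) n ≫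
      HomologicalComplex.homologyMap (inhomogeneousCochainsIso A).hom n =
      HomologicalComplex.homologyMap (inhomogeneousCochainsIso (coind S.subtype A)).hom n ≫
        HomologicalComplex.homologyMap (adjIso S A).inv n ≫
          HomologicalComplex.homologyMap (iotaStar S A) n := by
    rw [← HomologicalComplex.homologyMap_comp, cochainsMap_ev1,
      HomologicalComplex.homologyMap_comp, HomologicalComplex.homologyMap_comp]
  have : IsIso (HomologicalComplex.homologyMap (iotaStar S A) n) :=
    (quasiIsoAt_iff_isIso_homologyMap _ _).1 inferInstance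
  have : IsIso (HomologicalComplex.homologyMap (inhomogeneousCochainsIso A).hom n) :=
    inferInstance
  have h2 : HomologicalComplex.homologyMap (cochainsMap S.subtype (ev1 S A)) n =
      (HomologicalComplex.homologyMap (inhomogeneousCochainsIso (coind S.subtype A)).hom n ≫
        HomologicalComplex.homologyMap (adjIso S A).inv n ≫
          HomologicalComplex.homologyMap (iotaStar S A) n) ≫
        inv (HomologicalComplex.homologyMap (inhomogeneousCochainsIso A).hom n) := by
    rw [← h, Category.assoc, IsIso.hom_inv_id, Category.comp_id]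
  change IsIso (HomologicalComplex.homologyMap (cochainsMap S.subtype (ev1 S A)) n)
  rw [h2]
  infer_instance

/-- Shapiro's isomorphism, with explicit forward map. -/
def shapiroIso (n : ℕ) : groupCohomology (coind S.subtype A) n ≅ groupCohomology A n :=
  asIso (groupCohomology.map S.subtype (ev1 S A) n)

@[simp] theorem shapiroIso_hom (n : ℕ) :
    (shapiroIso S A n).hom = groupCohomology.map S.subtype (ev1 S A) n := rfl

variable {A} {A' : Rep.{u} k S} (ψ : A ⟶ A')

/-- Naturality of evaluation at `1`. -/
theorem ev1_naturality :
    (resFunctor S.subtype).map (coindMap S.subtype ψ) ≫ ev1 S A' = ev1 S A ≫ ψ := by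
  apply Rep.hom_ext
  apply Representation.IntertwiningMap.ext
  ext f
  rfl

/-- Naturality of the explicit Shapiro map in the coefficients. -/
theorem map_ev1_naturality (n : ℕ) :
    groupCohomology.map (MonoidHom.id G) (coindMap S.subtype ψ) n ≫
        groupCohomology.map S.subtype (ev1 S A') n =
      groupCohomology.map S.subtype (ev1 S A) n ≫ groupCohomology.map (MonoidHom.id S) ψ n := by
  have h1 := groupCohomology.map_comp (k := k) (A := coind S.subtype A) (B := coind S.subtype A')
    (C := A') (MonoidHom.id G) S.subtype (coindMap S.subtype ψ) (ev1 S A') n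
  have h2 := groupCohomology.map_comp (k := k) (A := coind S.subtype A) (B := A) (C := A')
    S.subtype (MonoidHom.id S) (ev1 S A) ψ n
  rw [← h1, ← h2]
  refine groupCohomology.map_congr rfl ?_ n
  rw [ev1_naturality]
  rfl

end Fermat.Agent.CFT.A1.ShapiroMap
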