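/-
PROJECT C, slice A1: consequences of `cores ∘ res = index` for finite groups:
`|G|` kills `Hⁿ⁺¹(G, A)`; uniquely `|G|`-divisible coefficients have vanishing higher cohomology.
-/
import Fermat.Agent.CFT.A1.CoresRes

set_option autoImplicit false

namespace Fermat.Agent.CFT.A1

open CategoryTheory Rep groupCohomology Limits

universe u

variable {k G : Type u} [CommRing k] [Group G]

/-- For a finite group, `|G|` kills `Hⁿ⁺¹(G, A)`. -/
theorem card_smul_eq_zero [Finite G] (A : Rep.{u} k G) (n : ℕ) (x : groupCohomology A (n + 1)) :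
    (Nat.card G : k) • x = 0 := by
  have h := index_smul_eq_zero_of_isZero (⊥ : Subgroup G) A (n + 1)
    (isZero_groupCohomology_succ_of_subsingleton _ n) x
  rwa [Subgroup.index_bot] at h

/-- `ℕ`-scalar version of `card_smul_eq_zero`. -/
theorem card_nsmul_eq_zero [Finite G] (A : Rep.{u} k G) (n : ℕ) (x : groupCohomology A (n + 1)) :
    Nat.card G • x = 0 := by
  rw [← Nat.cast_smul_eq_nsmul k]
  exact card_smul_eq_zero A n x

/-- The map induced on cohomology by the scalar endomorphism `c • 𝟙 A` is `c • 𝟙`. -/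
lemma map_smul_id (A : Rep.{u} k G) (c : k) (n : ℕ) (x : groupCohomology A n) :
    (groupCohomology.map (MonoidHom.id G) (c • 𝟙 A) n).hom x = c • x := by
  induction x using groupCohomology_induction_on with | h z => ?_
  have h1 := congrArg (fun φ => φ.hom z) (groupCohomology.π_map (MonoidHom.id G) (c • 𝟙 A) n)
  simp only [ModuleCat.hom_comp, LinearMap.comp_apply] at h1
  have h2 : (cocyclesMap (MonoidHom.id G) (c • 𝟙 A) n).hom z = c • z := by
    apply (ModuleCat.mono_iff_injective (iCocycles A n)).1 inferInstance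
    have h3 := congrArg (fun φ => φ.hom z) (HomologicalComplex.cyclesMap_i
      (cochainsMap (MonoidHom.id G) (c • 𝟙 A)) n)
    simp only [ModuleCat.hom_comp, LinearMap.comp_apply] at h3
    rw [map_smul]
    refine h3.trans ?_
    funext g
    simp only [cochainsMap_f_hom, LinearMap.coe_comp, Function.comp_apply,
      LinearMap.compLeft_apply, LinearMap.funLeft_apply, Rep.smul_hom]
    rfl
  refine h1.trans ?_
  rw [h2, map_smul]

/-- If multiplication by `|G|` is an automorphism of `A`, then `Hⁿ⁺¹(G, A) = 0`. -/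
theorem isZero_of_isIso_card_smul [Finite G] (A : Rep.{u} k G)
    (h : IsIso ((Nat.card G : k) • 𝟙 A)) (n : ℕ) : IsZero (groupCohomology A (n + 1)) := by
  rw [ModuleCat.isZero_iff_subsingleton]
  refine ⟨fun x y => ?_⟩
  suffices h0 : ∀ z : groupCohomology A (n + 1), z = 0 by rw [h0 x, h0 y]
  intro z
  have hinv : inv ((Nat.card G : k) • 𝟙 A) ≫ ((Nat.card G : k) • 𝟙 A) = 𝟙 A := IsIso.inv_hom_id _
  have h1 : groupCohomology.map (MonoidHom.id G) (inv ((Nat.card G : k) • 𝟙 A)) (n + 1) ≫
      groupCohomology.map (MonoidHom.id G) ((Nat.card G : k) • 𝟙 A) (n + 1) = 𝟙 _ := by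
    rw [← groupCohomology.map_id_comp, hinv, groupCohomology.map_id]
  have h2 := congrArg (fun φ => φ.hom z) h1
  simp only [ModuleCat.hom_comp, LinearMap.comp_apply, ModuleCat.hom_id, LinearMap.id_apply] at h2
  rw [map_smul_id, card_smul_eq_zero] at h2
  exact h2.symm

end Fermat.Agent.CFT.A1
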