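/-
PROJECT C, slice A1: Sylow reduction.  For a finite group `G` and `n ≥ 1`, a class in `Hⁿ(G, A)`
vanishes as soon as its restrictions to one Sylow `p`-subgroup for every prime `p` vanish.
-/
import Fermat.Agent.CFT.A1.Torsion

set_option autoImplicit false

namespace Fermat.Agent.CFT.A1

open CategoryTheory Rep groupCohomology Limits

universe u

variable {k G : Type u} [CommRing k] [Group G]

/-- If the restriction of `x` to a finite-index subgroup `S` vanishes then `[G : S] • x = 0`. -/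
theorem index_nsmul_eq_zero_of_rest_eq_zero (S : Subgroup G) [S.FiniteIndex] (A : Rep.{u} k G)
    (n : ℕ) (x : groupCohomology A n) (hx : (rest S A n).hom x = 0) : S.index • x = 0 := by
  have h1 := congrArg (fun φ => φ.hom x) (cores_rest S A n)
  simp only [ModuleCat.hom_comp, LinearMap.comp_apply] at h1
  rw [hx, map_zero] at h1
  rw [← Nat.cast_smul_eq_nsmul k]
  exact h1.symm

/-- **Sylow reduction.** -/
theorem eq_zero_of_rest_sylow_eq_zero [Finite G] (A : Rep.{u} k G) (n : ℕ)
    (x : groupCohomology A n)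
    (h : ∀ (p : ℕ) [Fact p.Prime], ∃ P : Sylow p G, (rest (P : Subgroup G) A n).hom x = 0) :
    x = 0 := by
  by_contra hx
  have h1 : addOrderOf x ≠ 1 := fun h1 => hx (AddMonoid.addOrderOf_eq_one_iff.mp h1)
  obtain ⟨q, hq, hqd⟩ := Nat.exists_prime_and_dvd h1
  have hqf : Fact q.Prime := ⟨hq⟩
  obtain ⟨P, hP⟩ := h q
  have h2 : addOrderOf x ∣ (P : Subgroup G).index :=
    addOrderOf_dvd_of_nsmul_eq_zero
      (index_nsmul_eq_zero_of_rest_eq_zero (P : Subgroup G) A n x hP)
  exact P.not_dvd_index (hqd.trans h2)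

/-- If `Hⁿ(P, A) = 0` for one Sylow `p`-subgroup `P` for every prime `p`, then
`Hⁿ(G, A) = 0`. -/
theorem isZero_of_isZero_sylow [Finite G] (A : Rep.{u} k G) (n : ℕ)
    (h : ∀ (p : ℕ) [Fact p.Prime], ∃ P : Sylow p G,
      IsZero (groupCohomology (res (P : Subgroup G).subtype A) n)) :
    IsZero (groupCohomology A n) := by
  rw [ModuleCat.isZero_iff_subsingleton]
  refine ⟨fun x y => ?_⟩
  suffices h0 : ∀ z : groupCohomology A n, z = 0 by rw [h0 x, h0 y]
  intro z
  refine eq_zero_of_rest_sylow_eq_zero A n z fun p _ => ?_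
  obtain ⟨P, hP⟩ := h p
  exact ⟨P, (ModuleCat.isZero_iff_subsingleton.mp hP).elim _ _⟩

/-- The `p`-primary part injects into the cohomology of a Sylow `p`-subgroup: if `p ^ m • x = 0`
and the restriction of `x` to a Sylow `p`-subgroup vanishes, then `x = 0`. -/
theorem eq_zero_of_pow_nsmul_of_rest_sylow [Finite G] (A : Rep.{u} k G) (n : ℕ)
    (x : groupCohomology A n) (p : ℕ) [Fact p.Prime] (m : ℕ) (hm : p ^ m • x = 0)
    (P : Sylow p G) (hP : (rest (P : Subgroup G) A n).hom x = 0) : x = 0 := by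
  have h2 : addOrderOf x ∣ (P : Subgroup G).index :=
    addOrderOf_dvd_of_nsmul_eq_zero
      (index_nsmul_eq_zero_of_rest_eq_zero (P : Subgroup G) A n x hP)
  have h3 : addOrderOf x ∣ p ^ m := addOrderOf_dvd_of_nsmul_eq_zero hm
  have hcop : Nat.Coprime (p ^ m) (P : Subgroup G).index :=
    Nat.Coprime.pow_left m ((Nat.Prime.coprime_iff_not_dvd Fact.out).mpr P.not_dvd_index)
  have h4 : addOrderOf x = 1 := Nat.eq_one_of_dvd_coprimes hcop h3 h2
  exact AddMonoid.addOrderOf_eq_one_iff.mp h4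

end Fermat.Agent.CFT.A1
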